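import Mathlib
import Fermat.Agent.LT.T7.H62.RigidPkg

/-!
# Row LT, tower T7, node T7.14 `RigidC`, leaf `EulerLogC`: LOCAL ESTIMATES (helper27)

OFF-MAIN.  Mathlib + `hpoly` of `LT/T7/H62/RigidPkg.lean` only.

For complex `a, a'` with `‖a‖, ‖a'‖ ≤ 2` and `0 ≤ x ≤ 1/100`, with
`t m = s_m(a) conj(s_m(a')) x^m`, `F = ∑_m t m`:
`‖t m‖ ≤ (9x)^m`, `∑ ‖t m‖ ≤ 1 + 10 x`, `‖F - 1 - a ā' x‖ ≤ 90 x²`, `F ≠ 0`,
`|log ‖F‖ - Re(a ā') x| ≤ 115 x²`, `|log ‖F‖| ≤ 6 x`.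
-/

set_option autoImplicit false

open scoped ComplexConjugate

noncomputable section

namespace Fermat.Agent.LT.T7.H27

open Fermat.Agent.LT.T7.Rigid

theorem hpoly_zero27 (a : ℂ) : hpoly a 0 = 1 := rfl

theorem hpoly_one27 (a : ℂ) : hpoly a 1 = a := rfl

theorem hpoly_add_two27 (a : ℂ) (m : ℕ) :
    hpoly a (m + 2) = a * hpoly a (m + 1) - hpoly a m := rfl

theorem norm_hpoly_le27 {a : ℂ} (ha : ‖a‖ ≤ 2) : ∀ m : ℕ, ‖hpoly a m‖ ≤ 3 ^ m ∧
    ‖hpoly a (m + 1)‖ ≤ 3 ^ (m + 1) := by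
  intro m
  induction m with
  | zero =>
    refine ⟨by simp [hpoly_zero27], ?_⟩
    rw [hpoly_one27]
    have : (3 : ℝ) ^ (0 + 1) = 3 := by norm_num
    linarith
  | succ m ih =>
    refine ⟨ih.2, ?_⟩
    rw [hpoly_add_two27]
    calc ‖a * hpoly a (m + 1) - hpoly a m‖
        ≤ ‖a * hpoly a (m + 1)‖ + ‖hpoly a m‖ := norm_sub_le _ _
      _ = ‖a‖ * ‖hpoly a (m + 1)‖ + ‖hpoly a m‖ := by rw [norm_mul]
      _ ≤ 2 * 3 ^ (m + 1) + 3 ^ m := by
          have := mul_le_mul ha ih.2 (norm_nonneg _) (by norm_num : (0 : ℝ) ≤ 2)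
          linarith [ih.1]
      _ ≤ 3 ^ (m + 1 + 1) := by
          have h0 : (0 : ℝ) < 3 ^ m := by positivity
          have e1 : (3 : ℝ) ^ (m + 1) = 3 * 3 ^ m := pow_succ' 3 m
          have e2 : (3 : ℝ) ^ (m + 1 + 1) = 9 * 3 ^ m := by
            rw [pow_succ, pow_succ]; ring
          rw [e1, e2]
          linarith

/-- The local term `t m = s_m(a) conj(s_m(a')) x^m`. -/
def lt27 (a a' : ℂ) (x : ℝ) (m : ℕ) : ℂ := hpoly a m * conj (hpoly a' m) * ((x : ℂ)) ^ m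

theorem lt27_zero (a a' : ℂ) (x : ℝ) : lt27 a a' x 0 = 1 := by
  simp [lt27, hpoly_zero27]

theorem lt27_one (a a' : ℂ) (x : ℝ) : lt27 a a' x 1 = a * conj a' * (x : ℂ) := by
  simp [lt27, hpoly_one27]

theorem norm_lt27_le {a a' : ℂ} (ha : ‖a‖ ≤ 2) (ha' : ‖a'‖ ≤ 2) {x : ℝ} (hx : 0 ≤ x) (m : ℕ) :
    ‖lt27 a a' x m‖ ≤ (9 * x) ^ m := by
  unfold lt27
  rw [norm_mul, norm_mul, RCLike.norm_conj, norm_pow, Complex.norm_real, Real.norm_of_nonneg hx,
    mul_pow]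
  have h1 := (norm_hpoly_le27 ha m).1
  have h2 := (norm_hpoly_le27 ha' m).1
  have h3 : ‖hpoly a m‖ * ‖hpoly a' m‖ ≤ 3 ^ m * 3 ^ m :=
    mul_le_mul h1 h2 (norm_nonneg _) (by positivity)
  have h4 : (3 : ℝ) ^ m * 3 ^ m = 9 ^ m := by
    rw [← mul_pow]; norm_num
  rw [h4] at h3
  exact mul_le_mul_of_nonneg_right h3 (by positivity)

section

variable {a a' : ℂ} (ha : ‖a‖ ≤ 2) (ha' : ‖a'‖ ≤ 2) {x : ℝ} (hx : 0 ≤ x) (hx1 : x ≤ 1 / 100)

include ha ha' hx hx1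

theorem summable_norm_lt27 : Summable fun m : ℕ => ‖lt27 a a' x m‖ := by
  refine Summable.of_nonneg_of_le (fun _ => norm_nonneg _) (norm_lt27_le ha ha' hx)
    (summable_geometric_of_lt_one (by positivity) (by linarith))

theorem tsum_norm_lt27_le : ∑' m : ℕ, ‖lt27 a a' x m‖ ≤ 1 + 10 * x := by
  have hg := summable_geometric_of_lt_one (r := 9 * x) (by positivity) (by linarith)
  have h1 : ∑' m : ℕ, ‖lt27 a a' x m‖ ≤ ∑' m : ℕ, (9 * x) ^ m :=
    (summable_norm_lt27 ha ha' hx hx1).tsum_le_tsum (norm_lt27_le ha ha' hx) hg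
  rw [tsum_geometric_of_lt_one (by positivity) (by linarith)] at h1
  refine le_trans h1 ?_
  have h9 : 0 < 1 - 9 * x := by linarith
  rw [inv_le_iff_one_le_mul₀ h9]
  nlinarith

/-- The local factor. -/
theorem norm_tsum_lt27_sub_le :
    ‖(∑' m : ℕ, lt27 a a' x m) - 1 - a * conj a' * (x : ℂ)‖ ≤ 90 * x ^ 2 := by
  have hs := summable_norm_lt27 ha ha' hx hx1
  have hsum : Summable fun m : ℕ => lt27 a a' x m := hs.of_norm
  have h2 := hsum.sum_add_tsum_nat_add 2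
  rw [Finset.sum_range_succ, Finset.sum_range_one, lt27_zero, lt27_one] at h2
  have h3 : (∑' m : ℕ, lt27 a a' x m) - 1 - a * conj a' * (x : ℂ)
      = ∑' m : ℕ, lt27 a a' x (m + 2) := by
    rw [← h2]; ring
  rw [h3]
  have hs2 : Summable fun m : ℕ => ‖lt27 a a' x (m + 2)‖ :=
    (summable_nat_add_iff 2).mpr hs
  refine le_trans (norm_tsum_le_tsum_norm hs2) ?_
  have hg := summable_geometric_of_lt_one (r := 9 * x) (by positivity) (by linarith)
  have hg2 : Summable fun m : ℕ => (9 * x) ^ 2 * (9 * x) ^ m := hg.mul_left _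
  have h4 : ∑' m : ℕ, ‖lt27 a a' x (m + 2)‖ ≤ ∑' m : ℕ, (9 * x) ^ 2 * (9 * x) ^ m := by
    refine hs2.tsum_le_tsum (fun m => ?_) hg2
    have := norm_lt27_le ha ha' hx (m + 2)
    rw [pow_add] at this
    linarith
  refine le_trans h4 ?_
  rw [tsum_mul_left, tsum_geometric_of_lt_one (by positivity) (by linarith)]
  have h9 : 0 < 1 - 9 * x := by linarith
  rw [← div_eq_mul_inv, div_le_iff₀ h9]
  nlinarith [sq_nonneg x, mul_nonneg hx (sq_nonneg x)]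

theorem norm_mul_conj_le27 : ‖a * conj a'‖ ≤ 4 := by
  rw [norm_mul, RCLike.norm_conj]
  nlinarith [norm_nonneg a, norm_nonneg a']

theorem norm_tsum_lt27_sub_one_le :
    ‖(∑' m : ℕ, lt27 a a' x m) - 1‖ ≤ 4.9 * x := by
  have h1 := norm_tsum_lt27_sub_le ha ha' hx hx1
  have h2 : (∑' m : ℕ, lt27 a a' x m) - 1
      = ((∑' m : ℕ, lt27 a a' x m) - 1 - a * conj a' * (x : ℂ)) + a * conj a' * (x : ℂ) := by
    ring
  rw [h2]
  refine le_trans (norm_add_le _ _) ?_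
  have h3 : ‖a * conj a' * (x : ℂ)‖ ≤ 4 * x := by
    rw [norm_mul, Complex.norm_real, Real.norm_of_nonneg hx]
    exact mul_le_mul_of_nonneg_right (norm_mul_conj_le27 ha ha' hx hx1) hx
  nlinarith

theorem tsum_lt27_ne_zero : (∑' m : ℕ, lt27 a a' x m) ≠ 0 := by
  intro h0
  have h1 := norm_tsum_lt27_sub_one_le ha ha' hx hx1
  rw [h0, zero_sub, norm_neg, norm_one] at h1
  linarith

theorem abs_log_norm_tsum_lt27_sub_le :
    |Real.log ‖∑' m : ℕ, lt27 a a' x m‖ - (a * conj a').re * x| ≤ 115 * x ^ 2 := by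
  set F := ∑' m : ℕ, lt27 a a' x m with hF
  set u := F - 1 with hu
  have hu1 : ‖u‖ ≤ 4.9 * x := norm_tsum_lt27_sub_one_le ha ha' hx hx1
  have hu2 : ‖u‖ ≤ 1 / 2 := by linarith
  have hF1 : F = 1 + u := by rw [hu]; ring
  have hlog := Complex.norm_log_one_add_sub_self_le (z := u) (by linarith)
  have hre : Real.log ‖F‖ = (Complex.log (1 + u)).re := by
    rw [Complex.log_re, hF1]
  have h1 : ‖Complex.log (1 + u) - u‖ ≤ ‖u‖ ^ 2 := by
    refine le_trans hlog ?_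
    have h3 : (1 - ‖u‖)⁻¹ ≤ 2 := by
      rw [inv_le_comm₀ (by linarith) (by norm_num)]
      linarith
    have h4 : 0 ≤ ‖u‖ ^ 2 := sq_nonneg _
    nlinarith
  have h2 : ‖u - a * conj a' * (x : ℂ)‖ ≤ 90 * x ^ 2 := by
    have := norm_tsum_lt27_sub_le ha ha' hx hx1
    rwa [← hF, ← hu] at this
  have h5 : Real.log ‖F‖ - (a * conj a').re * x
      = (Complex.log (1 + u) - u).re + (u - a * conj a' * (x : ℂ)).re := by
    rw [hre]
    simp only [Complex.sub_re, Complex.mul_re, Complex.ofReal_re, Complex.ofReal_im, mul_zero,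
      sub_zero]
    ring
  rw [h5]
  have h6 := Complex.abs_re_le_norm (Complex.log (1 + u) - u)
  have h7 := Complex.abs_re_le_norm (u - a * conj a' * (x : ℂ))
  have h8 : ‖u‖ ^ 2 ≤ (4.9 * x) ^ 2 := pow_le_pow_left₀ (norm_nonneg _) hu1 2
  calc |(Complex.log (1 + u) - u).re + (u - a * conj a' * (x : ℂ)).re|
      ≤ |(Complex.log (1 + u) - u).re| + |(u - a * conj a' * (x : ℂ)).re| := abs_add_le _ _
    _ ≤ ‖u‖ ^ 2 + 90 * x ^ 2 := by linarith
    _ ≤ 115 * x ^ 2 := by nlinarith [sq_nonneg x]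

theorem abs_log_norm_tsum_lt27_le :
    |Real.log ‖∑' m : ℕ, lt27 a a' x m‖| ≤ 6 * x := by
  have h1 := abs_log_norm_tsum_lt27_sub_le ha ha' hx hx1
  have h2 : |(a * conj a').re * x| ≤ 4 * x := by
    rw [abs_mul, abs_of_nonneg hx]
    exact mul_le_mul_of_nonneg_right
      ((Complex.abs_re_le_norm _).trans (norm_mul_conj_le27 ha ha' hx hx1)) hx
  have h3 : |Real.log ‖∑' m : ℕ, lt27 a a' x m‖|
      ≤ |Real.log ‖∑' m : ℕ, lt27 a a' x m‖ - (a * conj a').re * x| + |(a * conj a').re * x| := by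
    have := abs_add_le (Real.log ‖∑' m : ℕ, lt27 a a' x m‖ - (a * conj a').re * x)
      ((a * conj a').re * x)
    simpa using this
  nlinarith [sq_nonneg x]

end

end Fermat.Agent.LT.T7.H27

end
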