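import Mathlib
import Fermat.Agent.LT.T7.H27.EulerIdeal
import Fermat.Agent.LT.T7.H27.EulerLocal

/-!
# Row LT, tower T7, node T7.14 `RigidC`, leaf `EulerLogC`: MULTIPLICATIVITY of `coef` (helper27)

OFF-MAIN.  `coef a S (v ^ m * J) = cl27 a S v m * coef a S J` for `J` a `T`-factored ideal, `v ∉ T`.
-/

set_option autoImplicit false

open IsDedekindDomain NumberField Filter Topology
open scoped ComplexConjugate

noncomputable section

namespace Fermat.Agent.LT.T7.H27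

open Fermat.Agent.LT.T7.Rigid

variable {K : Type} [Field K] [NumberField K]

open Classical in
/-- The local coefficient, bad places included. -/
def cl27 (a : HeightOneSpectrum (𝓞 K) → ℂ) (S : Set (HeightOneSpectrum (𝓞 K)))
    (v : HeightOneSpectrum (𝓞 K)) (m : ℕ) : ℂ :=
  if v ∈ S then (if m = 0 then 1 else 0) else hpoly (a v) m

theorem cl27_zero (a : HeightOneSpectrum (𝓞 K) → ℂ) (S : Set (HeightOneSpectrum (𝓞 K)))
    (v : HeightOneSpectrum (𝓞 K)) : cl27 a S v 0 = 1 := by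
  unfold cl27
  by_cases h : v ∈ S
  · rw [if_pos h, if_pos rfl]
  · rw [if_neg h, hpoly_zero27]

theorem cl27_of_mem (a : HeightOneSpectrum (𝓞 K) → ℂ) {S : Set (HeightOneSpectrum (𝓞 K))}
    {v : HeightOneSpectrum (𝓞 K)} (hv : v ∈ S) {m : ℕ} (hm : m ≠ 0) : cl27 a S v m = 0 := by
  unfold cl27
  rw [if_pos hv, if_neg hm]

theorem cl27_of_notMem (a : HeightOneSpectrum (𝓞 K) → ℂ) {S : Set (HeightOneSpectrum (𝓞 K))}
    {v : HeightOneSpectrum (𝓞 K)} (hv : v ∉ S) (m : ℕ) : cl27 a S v m = hpoly (a v) m := by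
  unfold cl27
  rw [if_neg hv]

theorem ordAt_top27 (w : HeightOneSpectrum (𝓞 K)) : ordAt w (⊤ : Ideal (𝓞 K)) = 0 :=
  (ordAt_eq_zero_iff27 w top_ne_bot).mpr fun h => w.isPrime.ne_top (top_le_iff.mp h)

theorem coef_top27 (a : HeightOneSpectrum (𝓞 K) → ℂ) (S : Set (HeightOneSpectrum (𝓞 K))) :
    coef a S ⊤ = 1 := by
  unfold coef
  rw [if_neg]
  · simp only [ordAt_top27, hpoly_zero27, finprod_one]
  · rintro (h | ⟨v, -, hv⟩)
    · exact top_ne_bot h
    · exact v.isPrime.ne_top (top_le_iff.mp hv)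

/-- The finite product identity. -/
theorem finprod_mulPow27 (a : HeightOneSpectrum (𝓞 K) → ℂ) (v : HeightOneSpectrum (𝓞 K))
    {J : Ideal (𝓞 K)} (hJ : J ≠ ⊥) (hv : ordAt v J = 0) (m : ℕ) :
    ∏ᶠ w : HeightOneSpectrum (𝓞 K), hpoly (a w) (ordAt w (v.asIdeal ^ m * J))
      = hpoly (a v) m * ∏ᶠ w : HeightOneSpectrum (𝓞 K), hpoly (a w) (ordAt w J) := by
  classical
  have hfin : {w : HeightOneSpectrum (𝓞 K) | w.asIdeal ∣ J}.Finite := Ideal.finite_factors hJ
  set U : Finset (HeightOneSpectrum (𝓞 K)) := hfin.toFinset with hU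
  have hvU : v ∉ U := by
    rw [hU, Set.Finite.mem_toFinset]
    intro h
    exact (ordAt_eq_zero_iff27 v hJ).mp hv (Ideal.dvd_iff_le.mp h)
  have hout : ∀ w : HeightOneSpectrum (𝓞 K), w ∉ U → ordAt w J = 0 := by
    intro w hw
    rw [ordAt_eq_zero_iff27 w hJ]
    intro h
    apply hw
    rw [hU, Set.Finite.mem_toFinset]
    exact Ideal.dvd_iff_le.mpr h
  have hvord : ordAt v (v.asIdeal ^ m * J) = m := by
    rw [ordAt_mul27 v (pow_ne_zero m v.ne_bot) hJ, ordAt_pow_self27, hv, add_zero]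
  have h1 : ∏ᶠ w : HeightOneSpectrum (𝓞 K), hpoly (a w) (ordAt w J)
      = ∏ w ∈ U, hpoly (a w) (ordAt w J) := by
    refine finprod_eq_prod_of_mulSupport_subset _ (fun w hw => ?_)
    by_contra hwU
    apply hw
    show hpoly (a w) (ordAt w J) = 1
    rw [hout w hwU, hpoly_zero27]
  have h2 : ∏ᶠ w : HeightOneSpectrum (𝓞 K), hpoly (a w) (ordAt w (v.asIdeal ^ m * J))
      = ∏ w ∈ insert v U, hpoly (a w) (ordAt w (v.asIdeal ^ m * J)) := by
    refine finprod_eq_prod_of_mulSupport_subset _ (fun w hw => ?_)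
    by_contra hwU
    apply hw
    have hwv : w ≠ v := fun h => hwU (by rw [h]; exact Finset.mem_coe.mpr (Finset.mem_insert_self _ _))
    have hwU' : w ∉ U := fun h => hwU (Finset.mem_coe.mpr (Finset.mem_insert_of_mem h))
    show hpoly (a w) (ordAt w (v.asIdeal ^ m * J)) = 1
    rw [ordAt_mulPow_of_ne27 hwv hJ, hout w hwU', hpoly_zero27]
  rw [h1, h2, Finset.prod_insert hvU, hvord]
  congr 1
  refine Finset.prod_congr rfl (fun w hw => ?_)
  have hwv : w ≠ v := fun h => hvU (h ▸ hw)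
  rw [ordAt_mulPow_of_ne27 hwv hJ]

/-- **Multiplicativity of `coef`.** -/
theorem coef_mulPow27 (a : HeightOneSpectrum (𝓞 K) → ℂ) (S : Set (HeightOneSpectrum (𝓞 K)))
    {T : Finset (HeightOneSpectrum (𝓞 K))} {v : HeightOneSpectrum (𝓞 K)} (hv : v ∉ T)
    {J : Ideal (𝓞 K)} (hJ : J ∈ IT27 T) (m : ℕ) :
    coef a S (v.asIdeal ^ m * J) = cl27 a S v m * coef a S J := by
  classical
  have hI0 : v.asIdeal ^ m * J ≠ ⊥ := mul_ne_zero (pow_ne_zero m v.ne_bot) hJ.1
  have hord := ordAt_eq_zero_of_mem27 hv hJ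
  by_cases hvS : v ∈ S
  · rcases Nat.eq_zero_or_pos m with hm | hm
    · subst hm
      rw [pow_zero, one_mul, cl27_zero, one_mul]
    · rw [cl27_of_mem a hvS hm.ne', zero_mul]
      unfold coef
      rw [if_pos]
      right
      refine ⟨v, hvS, ?_⟩
      refine le_trans (Ideal.mul_le_inf.trans inf_le_left) ?_
      exact Ideal.pow_le_self hm.ne'
  · rw [cl27_of_notMem a hvS]
    have hiff : (∃ w ∈ S, v.asIdeal ^ m * J ≤ w.asIdeal) ↔ ∃ w ∈ S, J ≤ w.asIdeal := by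
      constructor
      · rintro ⟨w, hwS, hw⟩
        rcases (w.isPrime.mul_le).mp hw with h | h
        · have := w.isPrime.le_of_pow_le h
          rw [le_eq_of_places27 this] at hwS
          exact absurd hwS hvS
        · exact ⟨w, hwS, h⟩
      · rintro ⟨w, hwS, hw⟩
        exact ⟨w, hwS, (Ideal.mul_le_inf.trans inf_le_right).trans hw⟩
    unfold coef
    by_cases hc : ∃ w ∈ S, J ≤ w.asIdeal
    · rw [if_pos (Or.inr (hiff.mpr hc)), if_pos (Or.inr hc), mul_zero]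
    · have hc' : ¬ (v.asIdeal ^ m * J = ⊥ ∨ ∃ w ∈ S, v.asIdeal ^ m * J ≤ w.asIdeal) := by
        rintro (h | h)
        · exact hI0 h
        · exact hc (hiff.mp h)
      have hc'' : ¬ (J = ⊥ ∨ ∃ w ∈ S, J ≤ w.asIdeal) := by
        rintro (h | h)
        · exact hJ.1 h
        · exact hc h
      rw [if_neg hc', if_neg hc'']
      exact finprod_mulPow27 a v hJ.1 hord m

theorem coef2_mulPow27 (a a' : HeightOneSpectrum (𝓞 K) → ℂ)
    (S : Set (HeightOneSpectrum (𝓞 K)))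
    {T : Finset (HeightOneSpectrum (𝓞 K))} {v : HeightOneSpectrum (𝓞 K)} (hv : v ∉ T)
    {J : Ideal (𝓞 K)} (hJ : J ∈ IT27 T) (m : ℕ) :
    coef2 a a' S (v.asIdeal ^ m * J)
      = cl27 a S v m * conj (cl27 a' S v m) * coef2 a a' S J := by
  unfold coef2
  rw [coef_mulPow27 a S hv hJ, coef_mulPow27 a' S hv hJ, map_mul]
  ring

theorem coef2_top27 (a a' : HeightOneSpectrum (𝓞 K) → ℂ) (S : Set (HeightOneSpectrum (𝓞 K))) :
    coef2 a a' S ⊤ = 1 := by
  unfold coef2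
  rw [coef_top27, coef_top27]
  simp

/-- The norm weight is multiplicative. -/
theorem absNorm_rpow_mulPow27 (v : HeightOneSpectrum (𝓞 K)) (J : Ideal (𝓞 K)) (m : ℕ) (s : ℝ) :
    ((Ideal.absNorm (v.asIdeal ^ m * J) : ℕ) : ℝ) ^ (-s)
      = (nv v ^ (-s)) ^ m * ((Ideal.absNorm J : ℕ) : ℝ) ^ (-s) := by
  rw [map_mul, map_pow, Nat.cast_mul, Nat.cast_pow,
    Real.mul_rpow (by positivity) (by positivity)]
  congr 1
  unfold nv
  rw [Real.rpow_pow_comm (by positivity)]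

theorem absNorm_top_rpow27 (s : ℝ) :
    ((Ideal.absNorm (⊤ : Ideal (𝓞 K)) : ℕ) : ℝ) ^ (-s) = 1 := by
  rw [Ideal.absNorm_top]
  simp

end Fermat.Agent.LT.T7.H27

end
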