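import Mathlib
import Fermat.Agent.LT.T7.H27.EulerCoef

/-!
# Row LT, tower T7, node T7.14 `RigidC`, leaf T7.14.1 `EulerLogC` (helper27)

OFF-MAIN.  `eulerLogC27 K : Rigid.EulerLogC K`, VERBATIM vs `LT/T7/H62/RigidPkg.lean`
(helper62@3555cb1bd, sha256 a2b090c0e6b4fff0), with `Q₀ = 100`.
-/

set_option autoImplicit false

open IsDedekindDomain NumberField Filter Topology
open scoped ComplexConjugate

noncomputable section

namespace Fermat.Agent.LT.T7.H27

open Fermat.Agent.LT.T7.Rigid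

variable {K : Type} [Field K] [NumberField K]

/-- The local data of the Euler product. -/
def tau27 (a a' : HeightOneSpectrum (𝓞 K) → ℂ) (S : Set (HeightOneSpectrum (𝓞 K))) (s : ℝ)
    (v : HeightOneSpectrum (𝓞 K)) (m : ℕ) : ℂ :=
  cl27 a S v m * conj (cl27 a' S v m) * (((nv v ^ (-s) : ℝ) : ℂ)) ^ m

/-- The summand of the Dirichlet series. -/
def hS27 (a a' : HeightOneSpectrum (𝓞 K) → ℂ) (S : Set (HeightOneSpectrum (𝓞 K))) (s : ℝ)
    (I : Ideal (𝓞 K)) : ℂ :=
  coef2 a a' S I * (((Ideal.absNorm I : ℝ) ^ (-s) : ℝ) : ℂ)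

section Basic

variable (a a' : HeightOneSpectrum (𝓞 K) → ℂ) (S : Set (HeightOneSpectrum (𝓞 K))) (s : ℝ)

theorem hS27_top : hS27 a a' S s ⊤ = 1 := by
  unfold hS27
  rw [coef2_top27, absNorm_top_rpow27]
  simp

theorem hS27_bot : hS27 a a' S s ⊥ = 0 := by
  unfold hS27
  rw [coef2_bot, zero_mul]

theorem hS27_mulPow {T : Finset (HeightOneSpectrum (𝓞 K))} {v : HeightOneSpectrum (𝓞 K)}
    (hv : v ∉ T) {J : Ideal (𝓞 K)} (hJ : J ∈ IT27 T) (m : ℕ) :
    hS27 a a' S s (v.asIdeal ^ m * J) = tau27 a a' S s v m * hS27 a a' S s J := by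
  unfold hS27 tau27
  rw [coef2_mulPow27 a a' S hv hJ, absNorm_rpow_mulPow27]
  push_cast
  ring

theorem norm_hS27 (I : Ideal (𝓞 K)) :
    ‖hS27 a a' S s I‖ = ‖coef2 a a' S I‖ * ((Ideal.absNorm I : ℕ) : ℝ) ^ (-s) := by
  unfold hS27
  rw [norm_mul, Complex.norm_real, Real.norm_of_nonneg (Real.rpow_nonneg (by positivity) _)]

theorem tau27_of_mem {v : HeightOneSpectrum (𝓞 K)} (hv : v ∈ S) (m : ℕ) :
    tau27 a a' S s v m = if m = 0 then 1 else 0 := by
  unfold tau27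
  by_cases hm : m = 0
  · subst hm
    simp [cl27_zero]
  · rw [cl27_of_mem a hv hm, if_neg hm]
    simp

theorem tau27_of_notMem {v : HeightOneSpectrum (𝓞 K)} (hv : v ∉ S) (m : ℕ) :
    tau27 a a' S s v m = lt27 (a v) (a' v) (nv v ^ (-s)) m := by
  unfold tau27 lt27
  rw [cl27_of_notMem a hv, cl27_of_notMem a' hv]

theorem tsum_tau27_of_mem {v : HeightOneSpectrum (𝓞 K)} (hv : v ∈ S) :
    ∑' m : ℕ, tau27 a a' S s v m = 1 := by
  rw [tsum_eq_single 0]
  · rw [tau27_of_mem a a' S s hv]; simp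
  · intro m hm
    rw [tau27_of_mem a a' S s hv, if_neg hm]

theorem tsum_norm_tau27_of_mem {v : HeightOneSpectrum (𝓞 K)} (hv : v ∈ S) :
    ∑' m : ℕ, ‖tau27 a a' S s v m‖ = 1 := by
  rw [tsum_eq_single 0]
  · rw [tau27_of_mem a a' S s hv]; simp
  · intro m hm
    rw [tau27_of_mem a a' S s hv, if_neg hm, norm_zero]

theorem summable_norm_tau27_of_mem {v : HeightOneSpectrum (𝓞 K)} (hv : v ∈ S) :
    Summable fun m : ℕ => ‖tau27 a a' S s v m‖ := by
  refine summable_of_ne_finset_zero (s := {0}) (fun m hm => ?_)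
  rw [tau27_of_mem a a' S s hv, if_neg (by simpa using hm), norm_zero]

end Basic

/-- The hypotheses of `EulerLogC` at the places outside `S`, with `Q₀ = 100`. -/
def Hyp27 (a a' : HeightOneSpectrum (𝓞 K) → ℂ) (S : Finset (HeightOneSpectrum (𝓞 K))) : Prop :=
  ∀ v : HeightOneSpectrum (𝓞 K), v ∉ S →
    100 ≤ Ideal.absNorm v.asIdeal ∧ ‖a v‖ ≤ 2 ∧ ‖a' v‖ ≤ 2

section Local

variable {a a' : HeightOneSpectrum (𝓞 K) → ℂ} {S : Finset (HeightOneSpectrum (𝓞 K))}
  (hH : Hyp27 a a' S) {s : ℝ} (hs : 1 < s)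

include hH hs

theorem x_le27 {v : HeightOneSpectrum (𝓞 K)} (hv : v ∉ S) : nv v ^ (-s) ≤ 1 / 100 := by
  have h1 := nv_rpow_le_inv v hs.le
  have h2 : (100 : ℝ) ≤ nv v := by
    unfold nv
    exact_mod_cast (hH v hv).1
  have h3 : (nv v)⁻¹ ≤ 1 / 100 := by
    rw [inv_le_comm₀ (by linarith) (by norm_num)]
    simpa using h2
  linarith

theorem summable_norm_tau27 (v : HeightOneSpectrum (𝓞 K)) :
    Summable fun m : ℕ => ‖tau27 a a' (S : Set (HeightOneSpectrum (𝓞 K))) s v m‖ := by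
  by_cases hv : v ∈ S
  · exact summable_norm_tau27_of_mem a a' _ s (by exact_mod_cast hv)
  · have hv' : v ∉ (S : Set (HeightOneSpectrum (𝓞 K))) := by exact_mod_cast hv
    simp only [tau27_of_notMem a a' _ s hv']
    exact summable_norm_lt27 (hH v hv).2.1 (hH v hv).2.2 (nv_rpow_nonneg v s)
      (x_le27 hH hs hv)

theorem tsum_norm_tau27_le (v : HeightOneSpectrum (𝓞 K)) :
    ∑' m : ℕ, ‖tau27 a a' (S : Set (HeightOneSpectrum (𝓞 K))) s v m‖
      ≤ Real.exp (10 * nv v ^ (-s)) := by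
  have hx0 := nv_rpow_nonneg v s
  by_cases hv : v ∈ S
  · rw [tsum_norm_tau27_of_mem a a' _ s (by exact_mod_cast hv)]
    exact Real.one_le_exp (by positivity)
  · have hv' : v ∉ (S : Set (HeightOneSpectrum (𝓞 K))) := by exact_mod_cast hv
    simp only [tau27_of_notMem a a' _ s hv']
    refine le_trans (tsum_norm_lt27_le (hH v hv).2.1 (hH v hv).2.2 hx0 (x_le27 hH hs hv)) ?_
    have := Real.add_one_le_exp (10 * nv v ^ (-s))
    linarith

end Local

/-! ## Absolute summability -/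

section Global

variable {a a' : HeightOneSpectrum (𝓞 K) → ℂ} {S : Finset (HeightOneSpectrum (𝓞 K))}
  (hP : PlaceSumC K) (hH : Hyp27 a a' S) {s : ℝ} (hs : 1 < s)

include hP hH hs

theorem hasSum_norm_IT27 (T : Finset (HeightOneSpectrum (𝓞 K))) :
    HasSum (fun I : IT27 T => ‖hS27 a a' (S : Set (HeightOneSpectrum (𝓞 K))) s I‖)
      (∏ v ∈ T, ∑' m : ℕ, ‖tau27 a a' (S : Set (HeightOneSpectrum (𝓞 K))) s v m‖) := by
  classical
  refine (hasSum_IT27 (R := ℝ)
    (fun I => ‖hS27 a a' (S : Set (HeightOneSpectrum (𝓞 K))) s I‖)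
    (fun v m => ‖tau27 a a' (S : Set (HeightOneSpectrum (𝓞 K))) s v m‖) ?_ ?_ ?_ T).2
  · rw [hS27_top, norm_one]
  · intro T v hv J hJ m
    rw [hS27_mulPow a a' _ s hv hJ, norm_mul]
  · intro v
    simpa only [norm_norm] using summable_norm_tau27 hH hs v

theorem prod_tsum_norm_le (T : Finset (HeightOneSpectrum (𝓞 K))) :
    ∏ v ∈ T, ∑' m : ℕ, ‖tau27 a a' (S : Set (HeightOneSpectrum (𝓞 K))) s v m‖
      ≤ Real.exp (10 * ∑' v : HeightOneSpectrum (𝓞 K), nv v ^ (-s)) := by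
  have h1 : ∏ v ∈ T, ∑' m : ℕ, ‖tau27 a a' (S : Set (HeightOneSpectrum (𝓞 K))) s v m‖
      ≤ ∏ v ∈ T, Real.exp (10 * nv v ^ (-s)) :=
    Finset.prod_le_prod (fun v _ => tsum_nonneg fun _ => norm_nonneg _)
      (fun v _ => tsum_norm_tau27_le hH hs v)
  refine le_trans h1 ?_
  rw [← Real.exp_sum, Real.exp_le_exp, ← Finset.mul_sum]
  refine mul_le_mul_of_nonneg_left ?_ (by norm_num)
  exact (hP s hs).sum_le_tsum T (fun v _ => nv_rpow_nonneg v s)

theorem summable_norm_hS27 :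
    Summable fun I : Ideal (𝓞 K) => ‖hS27 a a' (S : Set (HeightOneSpectrum (𝓞 K))) s I‖ := by
  refine summable_of_IT27 _ (fun _ => norm_nonneg _) ?_
    (Real.exp (10 * ∑' v : HeightOneSpectrum (𝓞 K), nv v ^ (-s))) (fun T => ?_)
  · rw [hS27_bot, norm_zero]
  · exact ⟨_, hasSum_norm_IT27 hP hH hs T, prod_tsum_norm_le hP hH hs T⟩

theorem hasSum_IT27_hS27 (T : Finset (HeightOneSpectrum (𝓞 K))) :
    HasSum (fun I : IT27 T => hS27 a a' (S : Set (HeightOneSpectrum (𝓞 K))) s I)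
      (∏ v ∈ T, ∑' m : ℕ, tau27 a a' (S : Set (HeightOneSpectrum (𝓞 K))) s v m) := by
  classical
  refine (hasSum_IT27 (R := ℂ)
    (fun I => hS27 a a' (S : Set (HeightOneSpectrum (𝓞 K))) s I)
    (fun v m => tau27 a a' (S : Set (HeightOneSpectrum (𝓞 K))) s v m) ?_ ?_ ?_ T).2
  · exact hS27_top a a' _ s
  · intro T v hv J hJ m
    exact hS27_mulPow a a' _ s hv hJ m
  · intro v
    exact summable_norm_tau27 hH hs v

theorem tendsto_prod_dSer :
    Tendsto (fun T : Finset (HeightOneSpectrum (𝓞 K)) =>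
        ∏ v ∈ T, ∑' m : ℕ, tau27 a a' (S : Set (HeightOneSpectrum (𝓞 K))) s v m) atTop
      (𝓝 (dSer (coef2 a a' (S : Set (HeightOneSpectrum (𝓞 K)))) s)) := by
  have h := tendsto_IT27 (fun I => hS27 a a' (S : Set (HeightOneSpectrum (𝓞 K))) s I)
    (hS27_bot a a' _ s) (summable_norm_hS27 hP hH hs).of_norm _
    (fun T => hasSum_IT27_hS27 hP hH hs T)
  exact h

end Global

/-! ## The logarithm -/

/-- The local factor `F_v`. -/
def F27 (a a' : HeightOneSpectrum (𝓞 K) → ℂ) (S : Finset (HeightOneSpectrum (𝓞 K))) (s : ℝ)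
    (v : HeightOneSpectrum (𝓞 K)) : ℂ :=
  ∑' m : ℕ, tau27 a a' (S : Set (HeightOneSpectrum (𝓞 K))) s v m

/-- `log ‖F_v‖`. -/
def ell27 (a a' : HeightOneSpectrum (𝓞 K) → ℂ) (S : Finset (HeightOneSpectrum (𝓞 K))) (s : ℝ)
    (v : HeightOneSpectrum (𝓞 K)) : ℝ :=
  Real.log ‖F27 a a' S s v‖

section Log

variable {a a' : HeightOneSpectrum (𝓞 K) → ℂ} {S : Finset (HeightOneSpectrum (𝓞 K))}
  (hP : PlaceSumC K) (hH : Hyp27 a a' S) {s : ℝ} (hs : 1 < s)

theorem F27_of_mem (a a' : HeightOneSpectrum (𝓞 K) → ℂ) {S : Finset (HeightOneSpectrum (𝓞 K))}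
    (s : ℝ) {v : HeightOneSpectrum (𝓞 K)} (hv : v ∈ S) : F27 a a' S s v = 1 :=
  tsum_tau27_of_mem a a' _ s (by exact_mod_cast hv)

theorem F27_of_notMem (a a' : HeightOneSpectrum (𝓞 K) → ℂ)
    {S : Finset (HeightOneSpectrum (𝓞 K))} (s : ℝ) {v : HeightOneSpectrum (𝓞 K)} (hv : v ∉ S) :
    F27 a a' S s v = ∑' m : ℕ, lt27 (a v) (a' v) (nv v ^ (-s)) m := by
  have hv' : v ∉ (S : Set (HeightOneSpectrum (𝓞 K))) := by exact_mod_cast hv
  unfold F27
  simp only [tau27_of_notMem a a' _ s hv']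

theorem ell27_of_mem (a a' : HeightOneSpectrum (𝓞 K) → ℂ)
    {S : Finset (HeightOneSpectrum (𝓞 K))} (s : ℝ) {v : HeightOneSpectrum (𝓞 K)} (hv : v ∈ S) :
    ell27 a a' S s v = 0 := by
  unfold ell27
  rw [F27_of_mem a a' s hv, norm_one, Real.log_one]

include hH hs

theorem F27_ne_zero (v : HeightOneSpectrum (𝓞 K)) : F27 a a' S s v ≠ 0 := by
  by_cases hv : v ∈ S
  · rw [F27_of_mem a a' s hv]
    exact one_ne_zero
  · rw [F27_of_notMem a a' s hv]
    exact tsum_lt27_ne_zero (hH v hv).2.1 (hH v hv).2.2 (nv_rpow_nonneg v s) (x_le27 hH hs hv)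

theorem abs_ell27_le (v : HeightOneSpectrum (𝓞 K)) :
    |ell27 a a' S s v| ≤ 6 * nv v ^ (-s) := by
  by_cases hv : v ∈ S
  · rw [ell27_of_mem a a' s hv, abs_zero]
    exact mul_nonneg (by norm_num) (nv_rpow_nonneg v s)
  · unfold ell27
    rw [F27_of_notMem a a' s hv]
    exact abs_log_norm_tsum_lt27_le (hH v hv).2.1 (hH v hv).2.2 (nv_rpow_nonneg v s)
      (x_le27 hH hs hv)

theorem sq_x_le27 (v : HeightOneSpectrum (𝓞 K)) :
    (nv v ^ (-s)) ^ 2 ≤ nv v ^ (-(2 : ℝ)) := by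
  have h0 : (0 : ℝ) ≤ nv v := le_trans zero_le_one (one_le_nv v)
  have h1 : (nv v ^ (-s)) ^ 2 = nv v ^ (-s * 2) := by
    rw [← Real.rpow_natCast, ← Real.rpow_mul h0]
    norm_num
  rw [h1]
  exact Real.rpow_le_rpow_of_exponent_le (one_le_nv v) (by linarith)

theorem abs_ell27_sub_le (v : HeightOneSpectrum (𝓞 K)) :
    |ell27 a a' S s v - (S : Set (HeightOneSpectrum (𝓞 K)))ᶜ.indicator
        (fun v => (a v * conj (a' v)).re * nv v ^ (-s)) v| ≤ 115 * nv v ^ (-(2 : ℝ)) := by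
  by_cases hv : v ∈ S
  · have hv' : v ∉ (S : Set (HeightOneSpectrum (𝓞 K)))ᶜ := fun h => h (by exact_mod_cast hv)
    rw [ell27_of_mem a a' s hv, Set.indicator_of_notMem hv', sub_zero, abs_zero]
    exact mul_nonneg (by norm_num) (Real.rpow_nonneg (le_trans zero_le_one (one_le_nv v)) _)
  · have hv' : v ∈ (S : Set (HeightOneSpectrum (𝓞 K)))ᶜ := by
      show v ∉ (S : Set (HeightOneSpectrum (𝓞 K)))
      exact_mod_cast hv
    rw [Set.indicator_of_mem hv']
    unfold ell27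
    rw [F27_of_notMem a a' s hv]
    refine le_trans (abs_log_norm_tsum_lt27_sub_le (hH v hv).2.1 (hH v hv).2.2
      (nv_rpow_nonneg v s) (x_le27 hH hs hv)) ?_
    exact mul_le_mul_of_nonneg_left (sq_x_le27 hH hs v) (by norm_num)

include hP

theorem summable_ell27 : Summable fun v : HeightOneSpectrum (𝓞 K) => ell27 a a' S s v := by
  refine Summable.of_norm_bounded ((hP s hs).mul_left 6) (fun v => ?_)
  rw [Real.norm_eq_abs]
  exact abs_ell27_le hH hs v

theorem norm_dSer_eq27 :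
    ‖dSer (coef2 a a' (S : Set (HeightOneSpectrum (𝓞 K)))) s‖
      = Real.exp (∑' v : HeightOneSpectrum (𝓞 K), ell27 a a' S s v) := by
  have h1 := (tendsto_prod_dSer hP hH hs).norm
  have h2 : Tendsto (fun T : Finset (HeightOneSpectrum (𝓞 K)) => ∑ v ∈ T, ell27 a a' S s v)
      atTop (𝓝 (∑' v : HeightOneSpectrum (𝓞 K), ell27 a a' S s v)) :=
    (summable_ell27 hP hH hs).hasSum
  have h3 := (Real.continuous_exp.tendsto _).comp h2
  have h4 : (fun T : Finset (HeightOneSpectrum (𝓞 K)) =>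
      ‖∏ v ∈ T, ∑' m : ℕ, tau27 a a' (S : Set (HeightOneSpectrum (𝓞 K))) s v m‖)
      = Real.exp ∘ fun T : Finset (HeightOneSpectrum (𝓞 K)) => ∑ v ∈ T, ell27 a a' S s v := by
    funext T
    rw [Function.comp_apply, Real.exp_sum, norm_prod]
    refine Finset.prod_congr rfl (fun v _ => ?_)
    unfold ell27
    rw [Real.exp_log (norm_pos_iff.mpr (F27_ne_zero hH hs v))]
    rfl
  rw [h4] at h1
  exact tendsto_nhds_unique h1 h3

end Log

/-- **LEAF T7.14.1 `EulerLogC`**, with `Q₀ = 100`. -/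
theorem eulerLogC27 (K : Type) [Field K] [NumberField K] : EulerLogC K := by
  intro hP
  refine ⟨100, fun a a' S hH => ⟨fun s hs => ?_,
    115 * ∑' v : HeightOneSpectrum (𝓞 K), nv v ^ (-(2 : ℝ)), fun s hs1 hs2 => ?_⟩⟩
  · have h := summable_norm_hS27 hP hH hs
    simpa only [norm_hS27] using h
  · have hnorm := norm_dSer_eq27 hP hH hs1
    constructor
    · intro h0
      rw [h0, norm_zero] at hnorm
      exact (Real.exp_pos _).ne hnorm
    · rw [hnorm, Real.log_exp]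
      have hsumE := summable_ell27 hP hH hs1
      have hsumI : Summable fun v : HeightOneSpectrum (𝓞 K) =>
          (S : Set (HeightOneSpectrum (𝓞 K)))ᶜ.indicator
            (fun v => (a v * conj (a' v)).re * nv v ^ (-s)) v :=
        summable_indicator_of_bound hP (S : Set (HeightOneSpectrum (𝓞 K)))
          (fun v => (a v * conj (a' v)).re) 4 (fun v hv => by
            have hv' : v ∉ S := by exact_mod_cast hv
            exact abs_re_mul_conj_le (hH v hv').2.1 (hH v hv').2.2) hs1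
      have h2 := hP 2 (by norm_num)
      unfold wSum
      rw [← hsumE.tsum_sub hsumI]
      have hbound : ∀ v : HeightOneSpectrum (𝓞 K),
          ‖ell27 a a' S s v - (S : Set (HeightOneSpectrum (𝓞 K)))ᶜ.indicator
            (fun v => (a v * conj (a' v)).re * nv v ^ (-s)) v‖ ≤ 115 * nv v ^ (-(2 : ℝ)) :=
        fun v => by
          rw [Real.norm_eq_abs]
          exact abs_ell27_sub_le hH hs1 v
      have hsumN : Summable fun v : HeightOneSpectrum (𝓞 K) =>
          ‖ell27 a a' S s v - (S : Set (HeightOneSpectrum (𝓞 K)))ᶜ.indicator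
            (fun v => (a v * conj (a' v)).re * nv v ^ (-s)) v‖ :=
        Summable.of_nonneg_of_le (fun _ => norm_nonneg _) hbound (h2.mul_left 115)
      rw [← Real.norm_eq_abs]
      refine le_trans (norm_tsum_le_tsum_norm hsumN) ?_
      rw [← tsum_mul_left]
      exact hsumN.tsum_le_tsum hbound (h2.mul_left 115)

end Fermat.Agent.LT.T7.H27

end
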